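import Fermat.Prelude.Def_FLTPrelim_FreyPackage
import Fermat.Prelude.Def_FLTPrelim_Modularity
import Mathlib.Tactic

set_option autoImplicit false

namespace Fermat.Agent.S04

open WeierstrassCurve

lemma two_dvd_b (P : FreyPackage) : (2 : ℤ) ∣ P.b :=
  (ZMod.intCast_zmod_eq_zero_iff_dvd P.b 2).1 P.hb2

lemma thirtytwo_dvd_b_pow (P : FreyPackage) : (32 : ℤ) ∣ P.b ^ P.p := by
  have hp5 := P.hp5
  have h2 : (2 : ℤ) ^ 5 ∣ P.b ^ P.p :=
    (pow_dvd_pow_of_dvd (two_dvd_b P) 5).trans (pow_dvd_pow _ (by omega))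
  simpa using h2

lemma a_pow_mod_four (P : FreyPackage) : ((P.a ^ P.p : ℤ) : ZMod 4) = 3 := by
  push_cast
  rw [P.ha4]
  obtain ⟨k, hk⟩ := P.hp_odd
  rw [hk, pow_succ, pow_mul]
  have : (3 : ZMod 4) ^ 2 = 1 := by decide
  rw [this, one_pow, one_mul]

/-- `4 ∣ b^p - 1 - a^p` for a Frey package. -/
lemma four_dvd_a2_num (P : FreyPackage) : (4 : ℤ) ∣ P.b ^ P.p - 1 - P.a ^ P.p := by
  have hb4 : (4 : ℤ) ∣ P.b ^ P.p := Dvd.dvd.trans (by norm_num) (thirtytwo_dvd_b_pow P)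
  have ha := a_pow_mod_four P
  have h4 : ((4 : ℕ) : ℤ) ∣ P.b ^ P.p - 1 - P.a ^ P.p := by
    rw [← ZMod.intCast_zmod_eq_zero_iff_dvd _ 4]
    have hb4' : ((P.b ^ P.p : ℤ) : ZMod 4) = 0 := by
      rw [ZMod.intCast_zmod_eq_zero_iff_dvd _ 4]
      exact_mod_cast hb4
    rw [Int.cast_sub, Int.cast_sub, hb4', ha]
    decide
  exact_mod_cast h4

lemma sixteen_dvd_a4_num (P : FreyPackage) : (16 : ℤ) ∣ -(P.a ^ P.p) * (P.b ^ P.p) :=
  Dvd.dvd.mul_left (Dvd.dvd.trans (by norm_num) (thirtytwo_dvd_b_pow P)) _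

lemma freyCurveInt_map (P : FreyPackage) :
    P.freyCurveInt.map (Int.castRingHom ℚ) = P.freyCurve := by
  ext
  · simp [FreyPackage.freyCurveInt, FreyPackage.freyCurve]
  · simp only [FreyPackage.freyCurveInt, FreyPackage.freyCurve, WeierstrassCurve.map_a₂,
      eq_intCast]
    rw [Int.cast_div (four_dvd_a2_num P) (by norm_num)]
    push_cast
    rfl
  · simp [FreyPackage.freyCurveInt, FreyPackage.freyCurve]
  · simp only [FreyPackage.freyCurveInt, FreyPackage.freyCurve, WeierstrassCurve.map_a₄,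
      eq_intCast]
    rw [Int.cast_div (sixteen_dvd_a4_num P) (by norm_num)]
    push_cast
    rfl
  · simp [FreyPackage.freyCurveInt, FreyPackage.freyCurve]

lemma four_mul_a₂ (P : FreyPackage) :
    4 * P.freyCurveInt.a₂ = P.b ^ P.p - 1 - P.a ^ P.p :=
  Int.mul_ediv_cancel' (four_dvd_a2_num P)

lemma sixteen_mul_a₄ (P : FreyPackage) :
    16 * P.freyCurveInt.a₄ = -(P.a ^ P.p * P.b ^ P.p) := by
  have h := Int.mul_ediv_cancel' (sixteen_dvd_a4_num P)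
  have e : P.freyCurveInt.a₄ = -(P.a ^ P.p) * (P.b ^ P.p) / 16 := rfl
  rw [e, h, neg_mul]

lemma freyCurveInt_a₁ (P : FreyPackage) : P.freyCurveInt.a₁ = 1 := rfl
lemma freyCurveInt_a₃ (P : FreyPackage) : P.freyCurveInt.a₃ = 0 := rfl
lemma freyCurveInt_a₆ (P : FreyPackage) : P.freyCurveInt.a₆ = 0 := rfl

lemma freyCurveInt_Δ (P : FreyPackage) :
    P.freyCurveInt.Δ = P.freyCurveInt.a₄ ^ 2 * (P.c ^ P.p) ^ 2 := by
  have h1 := four_mul_a₂ P
  have h2 := sixteen_mul_a₄ P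
  rw [← P.hFLT]
  simp only [WeierstrassCurve.Δ, WeierstrassCurve.b₂, WeierstrassCurve.b₄, WeierstrassCurve.b₆,
    WeierstrassCurve.b₈, freyCurveInt_a₁, freyCurveInt_a₃, freyCurveInt_a₆]
  linear_combination
    (P.freyCurveInt.a₄ ^ 2 * (1 + 4 * P.freyCurveInt.a₂ + P.b ^ P.p - P.a ^ P.p)) * h1
      - 4 * P.freyCurveInt.a₄ ^ 2 * h2

lemma freyCurveInt_c₄ (P : FreyPackage) :
    P.freyCurveInt.c₄ = (P.a ^ P.p) ^ 2 + P.a ^ P.p * P.b ^ P.p + (P.b ^ P.p) ^ 2 := by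
  have h1 := four_mul_a₂ P
  have h2 := sixteen_mul_a₄ P
  simp only [WeierstrassCurve.c₄, WeierstrassCurve.b₂, WeierstrassCurve.b₄,
    freyCurveInt_a₁, freyCurveInt_a₃]
  linear_combination
    (1 + 4 * P.freyCurveInt.a₂ + P.b ^ P.p - P.a ^ P.p) * h1 - 3 * h2

lemma freyCurveInt_a₄_ne_zero (P : FreyPackage) : P.freyCurveInt.a₄ ≠ 0 := by
  intro h
  have h2 := sixteen_mul_a₄ P
  rw [h, mul_zero, eq_comm, neg_eq_zero] at h2
  exact mul_ne_zero (pow_ne_zero _ P.ha0) (pow_ne_zero _ P.hb0) h2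

theorem freyCurveInt_Δ_ne_zero (P : FreyPackage) : P.freyCurveInt.Δ ≠ 0 := by
  rw [freyCurveInt_Δ]
  exact mul_ne_zero (pow_ne_zero _ (freyCurveInt_a₄_ne_zero P))
    (pow_ne_zero _ (pow_ne_zero _ P.hc0))

lemma not_prime_dvd_of_gcd_eq_one {x y : ℤ} (h : gcd x y = 1) {q : ℤ} (hq : Prime q)
    (hx : q ∣ x) (hy : q ∣ y) : False := by
  have := dvd_gcd hx hy
  rw [h] at this
  exact hq.not_dvd_one this

theorem freyCurveInt_isSemistableModel (P : FreyPackage) :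
    P.freyCurveInt.IsSemistableModel := by
  intro q hq hqΔ hqc4
  have hq' : Prime (q : ℤ) := Nat.prime_iff_prime_int.mp hq
  rw [freyCurveInt_Δ] at hqΔ
  rw [freyCurveInt_c₄] at hqc4
  have h2 := sixteen_mul_a₄ P
  rcases hq'.dvd_or_dvd hqΔ with h | h
  · have hβ := hq'.dvd_of_dvd_pow h
    have hAB : (q : ℤ) ∣ P.a ^ P.p * P.b ^ P.p := by
      have : (q : ℤ) ∣ 16 * P.freyCurveInt.a₄ := hβ.mul_left _
      rw [h2] at this
      exact (dvd_neg.mp this)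
    rcases hq'.dvd_or_dvd hAB with hA | hB
    · have ha := hq'.dvd_of_dvd_pow hA
      have hB2 : (q : ℤ) ∣ (P.b ^ P.p) ^ 2 := by
        have := dvd_sub hqc4 (hA.mul_right (P.a ^ P.p + P.b ^ P.p))
        have e : (P.a ^ P.p) ^ 2 + P.a ^ P.p * P.b ^ P.p + (P.b ^ P.p) ^ 2
            - P.a ^ P.p * (P.a ^ P.p + P.b ^ P.p) = (P.b ^ P.p) ^ 2 := by ring
        rwa [e] at this
      have hb := hq'.dvd_of_dvd_pow (hq'.dvd_of_dvd_pow hB2)
      exact not_prime_dvd_of_gcd_eq_one P.hgcdab hq' ha hb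
    · have hb := hq'.dvd_of_dvd_pow hB
      have hA2 : (q : ℤ) ∣ (P.a ^ P.p) ^ 2 := by
        have := dvd_sub hqc4 (hB.mul_right (P.a ^ P.p + P.b ^ P.p))
        have e : (P.a ^ P.p) ^ 2 + P.a ^ P.p * P.b ^ P.p + (P.b ^ P.p) ^ 2
            - P.b ^ P.p * (P.a ^ P.p + P.b ^ P.p) = (P.a ^ P.p) ^ 2 := by ring
        rwa [e] at this
      have ha := hq'.dvd_of_dvd_pow (hq'.dvd_of_dvd_pow hA2)
      exact not_prime_dvd_of_gcd_eq_one P.hgcdab hq' ha hb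
  · have hC := hq'.dvd_of_dvd_pow h
    have hc := hq'.dvd_of_dvd_pow hC
    have hAB : (q : ℤ) ∣ P.a ^ P.p * P.b ^ P.p := by
      have := dvd_sub (hC.mul_right (P.c ^ P.p)) hqc4
      have e : P.c ^ P.p * P.c ^ P.p
          - ((P.a ^ P.p) ^ 2 + P.a ^ P.p * P.b ^ P.p + (P.b ^ P.p) ^ 2)
          = P.a ^ P.p * P.b ^ P.p := by
        rw [← P.hFLT]; ring
      rwa [e] at this
    rcases hq'.dvd_or_dvd hAB with hA | hB
    · exact not_prime_dvd_of_gcd_eq_one P.hgcdac hq' (hq'.dvd_of_dvd_pow hA) hc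
    · exact not_prime_dvd_of_gcd_eq_one P.hgcdbc hq' (hq'.dvd_of_dvd_pow hB) hc

/-- The wiring: semistable modularity (statement S60) implies modularity of the Frey curve
(statement S04). -/
theorem freyCurve_isModular_of_semistable_modularity
    (h : ∀ W : WeierstrassCurve ℤ, W.Δ ≠ 0 → W.IsSemistableModel →
      (W.map (Int.castRingHom ℚ)).IsModular)
    (P : FreyPackage) : P.freyCurve.IsModular := by
  have := h P.freyCurveInt (freyCurveInt_Δ_ne_zero P) (freyCurveInt_isSemistableModel P)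
  rwa [freyCurveInt_map] at this

end Fermat.Agent.S04
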